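import Fermat.Agent.H3.MW.Interfaces

/-!
# P-MW / GTA-1 (row 781): Gauss's lemma for a product of monic linear factors

For a valuation `v` on a field `K` and `z : Fin d → K`, the maximum of the valuations of the
coefficients of `∏ (X - z a)` is `∏ max 1 (v (z a))`.
-/

set_option autoImplicit false

open Polynomial

namespace Fermat.Agent.H51.MW

variable {K : Type} [Field K] {Γ₀ : Type} [LinearOrderedCommGroupWithZero Γ₀]
  (v : Valuation K Γ₀)

/-- `c` is the Gauss norm of `f` with respect to `v`: the maximum of the valuations of the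
coefficients. -/
def IsGaussNorm (f : K[X]) (c : Γ₀) : Prop :=
  (∀ k, v (f.coeff k) ≤ c) ∧ ∃ k, v (f.coeff k) = c

theorem isGaussNorm_one : IsGaussNorm v (1 : K[X]) 1 := by
  refine ⟨fun k => ?_, 0, by simp⟩
  rw [coeff_one]
  split_ifs <;> simp

theorem IsGaussNorm.unique {f : K[X]} {c c' : Γ₀} (h : IsGaussNorm v f c)
    (h' : IsGaussNorm v f c') : c = c' := by
  obtain ⟨k, hk⟩ := h.2
  obtain ⟨k', hk'⟩ := h'.2
  exact le_antisymm (hk ▸ h'.1 k) (hk' ▸ h.1 k')

theorem coeff_X_sub_C_mul_zero (f : K[X]) (t : K) :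
    ((X - C t) * f).coeff 0 = -(t * f.coeff 0) := by
  rw [mul_coeff_zero]
  simp

theorem coeff_X_sub_C_mul_succ (f : K[X]) (t : K) (k : ℕ) :
    ((X - C t) * f).coeff (k + 1) = f.coeff k - t * f.coeff (k + 1) :=
  coeff_X_sub_C_mul

theorem IsGaussNorm.X_sub_C_mul {f : K[X]} {c : Γ₀} (h : IsGaussNorm v f c) (t : K) :
    IsGaussNorm v ((X - C t) * f) (max 1 (v t) * c) := by
  classical
  have h1 : (1 : Γ₀) ≤ max 1 (v t) := le_max_left _ _
  have ht : v t ≤ max 1 (v t) := le_max_right _ _
  have hc0 : (0 : Γ₀) ≤ c := zero_le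
  refine ⟨fun k => ?_, ?_⟩
  · -- upper bound
    rcases k with _ | k
    · rw [coeff_X_sub_C_mul_zero, Valuation.map_neg, map_mul]
      exact mul_le_mul' ht (h.1 0)
    · rw [coeff_X_sub_C_mul_succ]
      refine Valuation.map_sub_le v ?_ ?_
      · calc v (f.coeff k) ≤ c := h.1 k
          _ = 1 * c := (one_mul c).symm
          _ ≤ max 1 (v t) * c := mul_le_mul' h1 le_rfl
      · rw [map_mul]
        exact mul_le_mul' ht (h.1 (k + 1))
  · -- attained
    by_cases hc : c = 0
    · -- all coefficients vanish
      subst hc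
      refine ⟨0, ?_⟩
      rw [coeff_X_sub_C_mul_zero, Valuation.map_neg, map_mul, mul_zero]
      have := h.1 0
      rw [le_zero_iff] at this
      rw [this, mul_zero]
    have hcpos : 0 < c := lt_of_le_of_ne hc0 (Ne.symm hc)
    obtain ⟨k₀, hk₀⟩ := h.2
    -- coefficients beyond the degree vanish
    have hdeg : ∀ k, v (f.coeff k) = c → k ≤ f.natDegree := by
      intro k hk
      by_contra hlt
      rw [coeff_eq_zero_of_natDegree_lt (not_le.mp hlt), map_zero] at hk
      exact hc hk.symm
    rcases le_or_gt (v t) 1 with hle | hgt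
    · -- `v t ≤ 1`: take the largest index where the maximum is attained
      have hmax : max 1 (v t) = 1 := max_eq_left hle
      rw [hmax, one_mul]
      set P : ℕ → Prop := fun k => v (f.coeff k) = c with hP
      set m := Nat.findGreatest P f.natDegree with hm
      have hPm : P m := Nat.findGreatest_spec (P := P) (hdeg k₀ hk₀) hk₀
      have hnext : v (f.coeff (m + 1)) < c := by
        refine lt_of_le_of_ne (h.1 _) fun hEq => ?_
        have hle' : m + 1 ≤ f.natDegree := hdeg _ hEq
        have := Nat.le_findGreatest (P := P) hle' hEq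
        omega
      refine ⟨m + 1, ?_⟩
      rw [coeff_X_sub_C_mul_succ]
      have hlt : v (t * f.coeff (m + 1)) < v (f.coeff m) := by
        rw [map_mul, hPm]
        calc v t * v (f.coeff (m + 1)) ≤ 1 * v (f.coeff (m + 1)) := mul_le_mul' hle le_rfl
          _ = v (f.coeff (m + 1)) := one_mul _
          _ < c := hnext
      rw [Valuation.map_sub_eq_of_lt_left v hlt]
      exact hPm
    · -- `1 < v t`: take the smallest index where the maximum is attained
      have hmax : max 1 (v t) = v t := max_eq_right hgt.le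
      rw [hmax]
      have hex : ∃ k, v (f.coeff k) = c := ⟨k₀, hk₀⟩
      set m := Nat.find hex with hm
      have hPm : v (f.coeff m) = c := Nat.find_spec hex
      have hmin : ∀ j, j < m → v (f.coeff j) < c := fun j hj =>
        lt_of_le_of_ne (h.1 j) (Nat.find_min hex hj)
      have hlt' : c < v t * c := by
        calc c = 1 * c := (one_mul c).symm
          _ < v t * c := by
            exact (mul_lt_mul_iff_of_pos_right hcpos).mpr hgt
      rcases hcase : m with _ | j
      · refine ⟨0, ?_⟩
        rw [coeff_X_sub_C_mul_zero, Valuation.map_neg, map_mul]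
        rw [hcase] at hPm
        rw [hPm]
      · refine ⟨j + 1, ?_⟩
        rw [hcase] at hPm
        have hj : v (f.coeff j) < c := hmin j (by omega)
        rw [coeff_X_sub_C_mul_succ]
        have hlt : v (f.coeff j) < v (t * f.coeff (j + 1)) := by
          rw [map_mul, hPm]
          exact hj.trans hlt'
        rw [Valuation.map_sub_eq_of_lt_right v hlt, map_mul, hPm]

theorem isGaussNorm_prod (d : ℕ) (z : Fin d → K) :
    IsGaussNorm v (∏ a : Fin d, (X - C (z a))) (∏ a : Fin d, max 1 (v (z a))) := by
  induction d with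
  | zero => simpa using isGaussNorm_one v
  | succ d ih =>
    rw [Fin.prod_univ_succ, Fin.prod_univ_succ]
    exact (ih (fun a => z a.succ)).X_sub_C_mul v (z 0)

theorem one_le_prod_max (d : ℕ) (z : Fin d → K) :
    (1 : Γ₀) ≤ ∏ a : Fin d, max 1 (v (z a)) := by
  induction d with
  | zero => simp
  | succ d ih =>
    rw [Fin.prod_univ_succ]
    calc (1 : Γ₀) = 1 * 1 := (one_mul 1).symm
      _ ≤ max 1 (v (z 0)) * ∏ a : Fin d, max 1 (v (z a.succ)) :=
        mul_le_mul' (le_max_left _ _) (ih _)

/-- **GTA-1**: Gauss's lemma for a product of monic linear factors. -/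
theorem gaussLinear : Fermat.Agent.H3.MW.GaussLinearStatement := by
  intro K _ Γ₀ _ v d z
  obtain ⟨hle, k, hk⟩ := isGaussNorm_prod v d z
  have hpos : (1 : Γ₀) ≤ ∏ a : Fin d, max 1 (v (z a)) := one_le_prod_max v d z
  apply le_antisymm
  · exact Finset.sup_le fun k _ => hle k
  · have hkd : k < d + 1 := by
      by_contra hlt
      have hdeg : (∏ a : Fin d, (X - C (z a))).natDegree < k := by
        have : (∏ a : Fin d, (X - C (z a))).natDegree = d := by
          rw [natDegree_finsetProd_X_sub_C_eq_card]
          simp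
        omega
      rw [coeff_eq_zero_of_natDegree_lt hdeg, map_zero] at hk
      rw [← hk] at hpos
      exact absurd hpos (not_le.mpr zero_lt_one)
    rw [← hk]
    exact Finset.le_sup (f := fun k : Fin (d + 1) =>
      v ((∏ a : Fin d, (X - C (z a))).coeff (k : ℕ))) (Finset.mem_univ (⟨k, hkd⟩ : Fin (d + 1)))

end Fermat.Agent.H51.MW
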